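import Mathlib
import Fermat.Prelude.Def_GaloisRep_Adic
import Fermat.Prelude.Def_GaloisRep_LocalConditions
import Fermat.Agent.Lib.FrobeniusExists
import Fermat.Agent.Lib.CFT.Cheb.Main

/-!
# Traces of adic Galois representations and Frobenius density (P-S34 phase 2, package (T5))

* `trace_sub_trace_mem`: if `σ` and `τ` agree on the level-`n` field of an adic Galois
  representation `ρ`, then `tr ρ(σ) ≡ tr ρ(τ)` modulo `𝔪 ^ n`.
* `trace_eq_of_charpoly`: `charpoly ρ(σ) = X ^ 2 - a X + b` gives `tr ρ(σ) = a`.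
* `exists_frobenius_trace_congr`: Chebotarev approximation of the traces of two adic
  representations (possibly over different rings) at an arbitrary `σ₀` by the traces at a Frobenius
  element at a prime outside a given finite set.
* `exists_comap_pow_le`: for an injective ring homomorphism `f` from a discrete valuation ring `O`
  to a noetherian local ring `B`, the ideals `f⁻¹(𝔪_B ^ n)` tend to zero `𝔪_O`-adically.
-/

set_option autoImplicit false

namespace Fermat.Agent.S34x.Phase2.TraceDensity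

open Polynomial IsLocalRing

local notation "Qbar" => AlgebraicClosure ℚ
local notation "Γℚ" => (AlgebraicClosure ℚ ≃ₐ[ℚ] AlgebraicClosure ℚ)

section LinearAlgebra

variable {A V ι : Type*} [CommRing A] [AddCommGroup V] [Module A V]

/-- The coordinates of an element of `I • ⊤` lie in `I`. -/
theorem repr_mem_of_mem_smul_top (b : Module.Basis ι A V) (I : Ideal A) {x : V}
    (hx : x ∈ I • (⊤ : Submodule A V)) (i : ι) : b.repr x i ∈ I := by
  refine Submodule.smul_induction_on hx (fun a ha w _ => ?_) (fun x y hx hy => ?_)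
  · rw [map_smul, Finsupp.smul_apply, smul_eq_mul]
    exact I.mul_mem_right _ ha
  · rw [map_add, Finsupp.add_apply]
    exact I.add_mem hx hy

/-- The trace of an endomorphism with image in `I • ⊤` lies in `I`. -/
theorem trace_mem_of_forall_mem_smul_top [Module.Free A V] [Module.Finite A V] (I : Ideal A)
    (f : Module.End A V) (hf : ∀ v, f v ∈ I • (⊤ : Submodule A V)) :
    LinearMap.trace A V f ∈ I := by
  classical
  let b := Module.Free.chooseBasis A V
  rw [LinearMap.trace_eq_matrix_trace A b f, Matrix.trace]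
  refine I.sum_mem fun i _ => ?_
  rw [Matrix.diag_apply, LinearMap.toMatrix_apply]
  exact repr_mem_of_mem_smul_top b I (hf (b i)) i

/-- A linear endomorphism maps `I • ⊤` into itself. -/
theorem apply_mem_smul_top (I : Ideal A) (f : Module.End A V) {x : V}
    (hx : x ∈ I • (⊤ : Submodule A V)) : f x ∈ I • (⊤ : Submodule A V) := by
  have h1 : f x ∈ (I • (⊤ : Submodule A V)).map f := Submodule.mem_map_of_mem hx
  rw [Submodule.map_smul''] at h1
  exact Submodule.smul_mono le_rfl le_top h1

end LinearAlgebra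

section Trace

variable {A : Type} [CommRing A] [IsLocalRing A] (ρ : GaloisRepAdic A)

/-- If `σ` and `τ` agree on a level-`n` field of `ρ`, their traces are congruent modulo `𝔪 ^ n`. -/
theorem trace_sub_trace_mem (n : ℕ) {L : IntermediateField ℚ Qbar}
    (hL : ∀ σ : Γℚ, (∀ x ∈ L, σ x = x) →
      ∀ v : ρ.V, ρ.ρ σ v - v ∈ (maximalIdeal A ^ n) • (⊤ : Submodule A ρ.V))
    {σ τ : Γℚ} (h : ∀ x ∈ L, σ x = τ x) : ρ.trace σ - ρ.trace τ ∈ maximalIdeal A ^ n := by
  have hfix : ∀ x ∈ L, (τ⁻¹ * σ) x = x := fun x hx => by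
    rw [AlgEquiv.mul_apply, h x hx]
    exact τ.symm_apply_apply x
  have hdiff : ρ.ρ σ - ρ.ρ τ = ρ.ρ τ * (ρ.ρ (τ⁻¹ * σ) - 1) := by
    rw [mul_sub, mul_one, ← map_mul, mul_inv_cancel_left]
  rw [GaloisRepAdic.trace, GaloisRepAdic.trace, ← map_sub, hdiff]
  apply trace_mem_of_forall_mem_smul_top
  intro v
  rw [Module.End.mul_apply, LinearMap.sub_apply, Module.End.one_apply]
  exact apply_mem_smul_top _ _ (hL _ hfix v)

/-- The trace is read off from a characteristic polynomial of the form `X ^ 2 - a X + b`. -/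
theorem trace_eq_of_charpoly (σ : Γℚ) (a b : A)
    (h : LinearMap.charpoly (ρ.ρ σ) = X ^ 2 - C a * X + C b) : ρ.trace σ = a := by
  classical
  let bs := Module.Free.chooseBasis A ρ.V
  have hcard : Fintype.card (Module.Free.ChooseBasisIndex A ρ.V) = 2 := by
    rw [← Module.finrank_eq_card_chooseBasisIndex, ρ.finrank_eq]
  have : Nonempty (Module.Free.ChooseBasisIndex A ρ.V) :=
    Fintype.card_pos_iff.mp (by rw [hcard]; norm_num)
  rw [GaloisRepAdic.trace, LinearMap.trace_eq_matrix_trace A bs,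
    Matrix.trace_eq_neg_charpoly_coeff, LinearMap.charpoly_toMatrix, h, hcard]
  simp [coeff_C]

end Trace

section Chebotarev

variable {A₁ A₂ : Type} [CommRing A₁] [IsLocalRing A₁] [CommRing A₂] [IsLocalRing A₂]

/-- **Chebotarev approximation of traces.**  For two adic Galois representations (possibly over
different rings), an arbitrary `σ₀`, a finite set `bad` of primes and a level `n` there is a
Frobenius element `φ` at a prime `ℓ ∉ bad` whose traces are congruent to those of `σ₀` modulo the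
`n`-th powers of the maximal ideals. -/
theorem exists_frobenius_trace_congr (ρ₁ : GaloisRepAdic A₁) (ρ₂ : GaloisRepAdic A₂) (σ₀ : Γℚ)
    (bad : Finset ℕ) (n : ℕ) :
    ∃ ℓ : ℕ, ℓ.Prime ∧ ℓ ∉ bad ∧ ∃ P : ValuationSubring Qbar, P.LiesOverPrime ℓ ∧
      ∃ φ : Γℚ, P.IsFrobeniusAt φ ℓ ∧
        ρ₁.trace φ - ρ₁.trace σ₀ ∈ maximalIdeal A₁ ^ n ∧
        ρ₂.trace φ - ρ₂.trace σ₀ ∈ maximalIdeal A₂ ^ n := by
  obtain ⟨L₁, hL₁fin, hL₁⟩ := ρ₁.isAdicContinuous n
  obtain ⟨L₂, hL₂fin, hL₂⟩ := ρ₂.isAdicContinuous n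
  let L : IntermediateField ℚ Qbar := L₁ ⊔ L₂
  have hLfin : FiniteDimensional ℚ L := IntermediateField.finiteDimensional_sup L₁ L₂
  have hQG : IsGalois ℚ Qbar := Fermat.Agent.Lib.isGalois_algebraicClosure_rat
  let M : IntermediateField ℚ Qbar := IntermediateField.normalClosure ℚ L Qbar
  have hfd : FiniteDimensional ℚ M := by
    have h0 := _root_.normalClosure.is_finiteDimensional ℚ L Qbar
    exact h0
  have hnormal : Normal ℚ M := by
    have h0 := _root_.normalClosure.normal ℚ L Qbar
    exact h0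
  have hgal : IsGalois ℚ M := ⟨⟩
  have hLM : L ≤ M := IntermediateField.le_normalClosure L
  obtain ⟨ℓ, hℓ, hℓbad, P, hP, φ, hφ, hφσ⟩ :=
    Fermat.Agent.Lib.CFT.Cheb.exists_frobenius_lift M σ₀ bad
  refine ⟨ℓ, hℓ, hℓbad, P, hP, φ, hφ, ?_, ?_⟩
  · exact trace_sub_trace_mem ρ₁ n hL₁ fun x hx => hφσ x (hLM (le_sup_left (a := L₁) (b := L₂) hx))
  · exact trace_sub_trace_mem ρ₂ n hL₂ fun x hx => hφσ x (hLM (le_sup_right (a := L₁) (b := L₂) hx))

end Chebotarev

section DVR

variable {O B : Type*} [CommRing O] [IsDomain O] [IsDiscreteValuationRing O]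
  [CommRing B] [IsLocalRing B] [IsNoetherianRing B]

/-- For an injective ring homomorphism `f` from a discrete valuation ring `O` to a noetherian local
ring `B`, the ideals `f⁻¹(𝔪_B ^ n)` tend to zero `𝔪_O`-adically. -/
theorem exists_comap_pow_le (f : O →+* B) (hf : Function.Injective f) (k : ℕ) :
    ∃ n : ℕ, (maximalIdeal B ^ n).comap f ≤ maximalIdeal O ^ k := by
  by_contra hcon
  push Not at hcon
  have hle : ∀ n, maximalIdeal O ^ k ≤ (maximalIdeal B ^ n).comap f := fun n =>
    (Std.Total.total (r := (· ≤ ·)) (maximalIdeal O ^ k)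
      ((maximalIdeal B ^ n).comap f)).resolve_right (hcon n)
  have hbot : maximalIdeal O ^ k = ⊥ := by
    rw [eq_bot_iff]
    intro x hx
    have hx' : f x ∈ (⨅ n : ℕ, maximalIdeal B ^ n : Ideal B) := by
      rw [Ideal.mem_iInf]
      exact fun n => hle n hx
    rw [Ideal.iInf_pow_eq_bot_of_isLocalRing (maximalIdeal B) Ideal.IsPrime.ne_top', Ideal.mem_bot]
      at hx'
    rw [Ideal.mem_bot]
    exact hf (by rw [hx', map_zero])
  rw [← Ideal.zero_eq_bot] at hbot
  exact IsDiscreteValuationRing.not_a_field O (eq_zero_of_pow_eq_zero hbot)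

end DVR

end Fermat.Agent.S34x.Phase2.TraceDensity
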