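import Fermat.Prelude.Def_CuspForm_Newforms
import Fermat.Agent.Gateway.S29
import Fermat.Agent.S41.Forms.Consumer
import Fermat.Agent.Lib.FrobeniusExists
import Fermat.Agent.S34x.Phase2.TraceDensity

/-!
# Strong multiplicity one via Galois representations (P-S34 phase 2, package (T5))

Conditionally on the existence of the Galois representations attached to Hecke eigensystems
(`S30Statement`; the finiteness `S22Statement` of the Hecke algebras is landed unconditionally):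

* `qCoeff_eq_of_forall_notMem`: two normalised eigenforms (Prelude sense) of levels `N`, `N'` whose
  coefficients `a_ℓ` agree for all primes `ℓ` outside a finite set `S` have the same `a_ℓ` for ALL
  primes `ℓ ∤ N N'`.
* `not_occurs_of_isNewform`: the eigensystem of a Prelude newform of level `M` OUTSIDE a finite set
  `S` does not occur at any proper divisor level `M'` of `M`: there is no nonzero
  `f ∈ S₂(Γ₀(M'))` with `T_ℓ f = a_ℓ(g) f` for all primes `ℓ ∤ M`, `ℓ ∉ S`.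

The proof compares the traces of the two attached `p₁`-adic representations (`p₁` an auxiliary
prime) at a Frobenius element at `ℓ₀` through Chebotarev approximation.
-/

set_option autoImplicit false

namespace Fermat.Agent.S34x.Phase2.StrongMult

open Polynomial IsLocalRing NumberField ModularFormClass CongruenceSubgroup
open Fermat.Agent.Gateway.Assembly Fermat.Agent.S34x.Phase2.TraceDensity

local notation "Qbar" => AlgebraicClosure ℚ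
local notation "Γℚ" => (AlgebraicClosure ℚ ≃ₐ[ℚ] AlgebraicClosure ℚ)

/-- **Core comparison.**  Two adic Galois representations over extensions `O₁`, `O₂` of a discrete
valuation ring `O` whose traces at Frobenius elements outside a finite set of primes come from a
common element of `O` have "the same" trace at every `σ₀` at which both traces come from `O`. -/
theorem eq_of_trace_frobenius {O O₁ O₂ : Type} [CommRing O] [IsDomain O]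
    [IsDiscreteValuationRing O] [CommRing O₁] [IsLocalRing O₁] [IsNoetherianRing O₁]
    [CommRing O₂] [IsLocalRing O₂] [IsNoetherianRing O₂]
    (f₁ : O →+* O₁) (hf₁ : Function.Injective f₁) (f₂ : O →+* O₂) (hf₂ : Function.Injective f₂)
    (ρ₁ : GaloisRepAdic O₁) (ρ₂ : GaloisRepAdic O₂) (bad : Finset ℕ)
    (hfrob : ∀ ℓ : ℕ, ℓ.Prime → ℓ ∉ bad → ∀ P : ValuationSubring Qbar, P.LiesOverPrime ℓ →
      ∀ φ : Γℚ, P.IsFrobeniusAt φ ℓ → ∃ x : O, ρ₁.trace φ = f₁ x ∧ ρ₂.trace φ = f₂ x)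
    (σ₀ : Γℚ) (c c' : O) (hc : ρ₁.trace σ₀ = f₁ c) (hc' : ρ₂.trace σ₀ = f₂ c') : c = c' := by
  have hmem : ∀ k : ℕ, c - c' ∈ maximalIdeal O ^ k := by
    intro k
    obtain ⟨n₁, hn₁⟩ := exists_comap_pow_le f₁ hf₁ k
    obtain ⟨n₂, hn₂⟩ := exists_comap_pow_le f₂ hf₂ k
    obtain ⟨ℓ, hℓ, hℓbad, P, hP, φ, hφ, h1, h2⟩ :=
      exists_frobenius_trace_congr ρ₁ ρ₂ σ₀ bad (max n₁ n₂)
    obtain ⟨x, hx1, hx2⟩ := hfrob ℓ hℓ hℓbad P hP φ hφ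
    have hxc : x - c ∈ maximalIdeal O ^ k := by
      apply hn₁
      rw [Ideal.mem_comap, map_sub, ← hx1, ← hc]
      exact Ideal.pow_le_pow_right (le_max_left n₁ n₂) h1
    have hxc' : x - c' ∈ maximalIdeal O ^ k := by
      apply hn₂
      rw [Ideal.mem_comap, map_sub, ← hx2, ← hc']
      exact Ideal.pow_le_pow_right (le_max_right n₁ n₂) h2
    have : c - c' = (x - c') - (x - c) := by ring
    rw [this]
    exact (maximalIdeal O ^ k).sub_mem hxc' hxc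
  have hinf : c - c' ∈ (⨅ k : ℕ, maximalIdeal O ^ k : Ideal O) := by
    rw [Ideal.mem_iInf]
    exact hmem
  rw [Ideal.iInf_pow_eq_bot_of_isLocalRing (maximalIdeal O) Ideal.IsPrime.ne_top', Ideal.mem_bot,
    sub_eq_zero] at hinf
  exact hinf

/-- A character of a Hecke algebra with integral values in a number field `K ⊆ ℂ` factors through
the ring of integers of `K`. -/
theorem exists_integral_char (K : IntermediateField ℚ ℂ) {T : Type*} [CommRing T]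
    (χ₀ : T →+* ℂ) (hK : ∀ t, χ₀ t ∈ K) (hint : ∀ t, IsIntegral ℤ (χ₀ t)) :
    ∃ χ₁ : T →+* 𝓞 K, ∀ t, (((χ₁ t : 𝓞 K) : K) : ℂ) = χ₀ t := by
  let χK : T →+* K := RingHom.codRestrict χ₀ K hK
  have hχK : ∀ t, ((χK t : K) : ℂ) = χ₀ t := fun t => rfl
  have hintK : ∀ t, χK t ∈ integralClosure ℤ K := by
    intro t
    show IsIntegral ℤ (χK t)
    have h := hint t
    rw [← hχK t] at h
    exact (isIntegral_algebraMap_iff (algebraMap K ℂ).injective).mp h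
  exact ⟨RingHom.codRestrict χK (integralClosure ℤ K) hintK, fun t => rfl⟩

/-- **Strong multiplicity one at a prime `ℓ₀`.** -/
theorem qCoeff_eq_at (h22 : S22Statement) (h30 : S30Statement) {N N' : ℕ} [NeZero N] [NeZero N']
    {g : CuspForm (Gamma0 N) 2} {g' : CuspForm (Gamma0 N') 2}
    (hg : g.IsNormalizedEigenform) (hg' : g'.IsNormalizedEigenform) (S : Finset ℕ)
    (h : ∀ ℓ : ℕ, ℓ.Prime → ℓ ∉ S → ¬ ℓ ∣ N → ¬ ℓ ∣ N' → qCoeff g ℓ = qCoeff g' ℓ)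
    {ℓ₀ : ℕ} (hℓ₀ : ℓ₀.Prime) (hℓ₀N : ¬ ℓ₀ ∣ N) (hℓ₀N' : ¬ ℓ₀ ∣ N') :
    qCoeff g ℓ₀ = qCoeff g' ℓ₀ := by
  classical
  have hNpos : 0 < N := Nat.pos_of_ne_zero (NeZero.ne N)
  have hN'pos : 0 < N' := Nat.pos_of_ne_zero (NeZero.ne N')
  -- an auxiliary prime `p₁ ∤ N N' ℓ₀`
  obtain ⟨p₁, hp₁ge, hp₁⟩ := Nat.exists_infinite_primes (N * N' * ℓ₀ + 1)
  have : Fact p₁.Prime := ⟨hp₁⟩
  have hℓ₀pos : 0 < ℓ₀ := hℓ₀.pos
  have hNle : N ≤ N * N' * ℓ₀ := by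
    calc N = N * 1 * 1 := by ring
      _ ≤ N * N' * ℓ₀ := Nat.mul_le_mul (Nat.mul_le_mul le_rfl hN'pos) hℓ₀pos
  have hN'le : N' ≤ N * N' * ℓ₀ := by
    calc N' = 1 * N' * 1 := by ring
      _ ≤ N * N' * ℓ₀ := Nat.mul_le_mul (Nat.mul_le_mul hNpos le_rfl) hℓ₀pos
  have hℓ₀le : ℓ₀ ≤ N * N' * ℓ₀ := by
    calc ℓ₀ = 1 * ℓ₀ := by ring
      _ ≤ N * N' * ℓ₀ := Nat.mul_le_mul (Nat.mul_pos hNpos hN'pos) le_rfl
  have hp₁N : ¬ p₁ ∣ N := Nat.not_dvd_of_pos_of_lt hNpos (by omega)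
  have hp₁N' : ¬ p₁ ∣ N' := Nat.not_dvd_of_pos_of_lt hN'pos (by omega)
  have hℓ₀p₁ : ℓ₀ ≠ p₁ := by omega
  -- the set of bad primes for the representations
  let S₁ : Finset ℕ := insert p₁ (N * N').primeFactors
  have hNN' : N * N' ≠ 0 := (Nat.mul_pos hNpos hN'pos).ne'
  have hp₁S : p₁ ∈ S₁ := Finset.mem_insert_self _ _
  have hNS : ∀ q : ℕ, q.Prime → q ∣ N → q ∈ S₁ := fun q hq hqN =>
    Finset.mem_insert_of_mem (Nat.mem_primeFactors.mpr ⟨hq, Dvd.dvd.mul_right hqN N', hNN'⟩)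
  have hN'S : ∀ q : ℕ, q.Prime → q ∣ N' → q ∈ S₁ := fun q hq hqN' =>
    Finset.mem_insert_of_mem (Nat.mem_primeFactors.mpr ⟨hq, Dvd.dvd.mul_left hqN' N, hNN'⟩)
  have hNS' : ∀ q : ℕ, q.Prime → q ∣ N → q ∈ (↑S₁ : Set ℕ) := fun q hq hqN =>
    Finset.mem_coe.mpr (hNS q hq hqN)
  have hN'S' : ∀ q : ℕ, q.Prime → q ∣ N' → q ∈ (↑S₁ : Set ℕ) := fun q hq hqN' =>
    Finset.mem_coe.mpr (hN'S q hq hqN')
  have hmemS₁ : ∀ ℓ : ℕ, ℓ.Prime → ℓ ∉ S₁ → ¬ ℓ ∣ N ∧ ¬ ℓ ∣ N' ∧ ℓ ∉ (↑S₁ : Set ℕ) :=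
    fun ℓ hℓ hℓS => ⟨fun hd => hℓS (hNS ℓ hℓ hd), fun hd => hℓS (hN'S ℓ hℓ hd),
      fun hc => hℓS (Finset.mem_coe.mp hc)⟩
  have hℓ₀S₁ : ℓ₀ ∉ S₁ := by
    intro hmem
    rcases Finset.mem_insert.mp hmem with h1 | h1
    · exact hℓ₀p₁ h1
    · rcases (Nat.Prime.dvd_mul hℓ₀).mp (Nat.dvd_of_mem_primeFactors h1) with h2 | h2
      · exact hℓ₀N h2
      · exact hℓ₀N' h2
  -- the eigencharacters, with values in a common number field `K ⊆ ℂ`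
  have hfin : Module.Finite ℤ (CuspForm.heckeAlgebra N 2 (↑S₁ : Set ℕ)) := h22 N 2 _
  have hfin' : Module.Finite ℤ (CuspForm.heckeAlgebra N' 2 (↑S₁ : Set ℕ)) := h22 N' 2 _
  let χ₀ : CuspForm.heckeAlgebra N 2 (↑S₁ : Set ℕ) →+* ℂ := eigenChar hNS' hg
  let χ₀' : CuspForm.heckeAlgebra N' 2 (↑S₁ : Set ℕ) →+* ℂ := eigenChar hN'S' hg'
  have hint : ∀ t, IsIntegral ℤ (χ₀ t) := fun t => eigenChar_isIntegral hNS' hg hfin t
  have hint' : ∀ t, IsIntegral ℤ (χ₀' t) := fun t => eigenChar_isIntegral hN'S' hg' hfin' t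
  obtain ⟨K₁, hK₁fin, hK₁⟩ := exists_numberField_of_finite χ₀
  obtain ⟨K₂, hK₂fin, hK₂⟩ := exists_numberField_of_finite χ₀'
  let K : IntermediateField ℚ ℂ := K₁ ⊔ K₂
  have hKfin : FiniteDimensional ℚ K := IntermediateField.finiteDimensional_sup K₁ K₂
  obtain ⟨χ₁, hχ₁⟩ := exists_integral_char K χ₀
    (fun t => (le_sup_left : K₁ ≤ K₁ ⊔ K₂) (hK₁ t)) hint
  obtain ⟨χ₁', hχ₁'⟩ := exists_integral_char K χ₀'
    (fun t => (le_sup_right : K₂ ≤ K₁ ⊔ K₂) (hK₂ t)) hint'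
  have hOKinj : ∀ a b : 𝓞 K, (((a : 𝓞 K) : K) : ℂ) = (((b : 𝓞 K) : K) : ℂ) → a = b := by
    intro a b hab
    exact RingOfIntegers.ext (Subtype.ext hab)
  -- a prime `P` of `𝓞 K` over `p₁` and the complete discrete valuation ring
  have hmaxp : (Ideal.span {(p₁ : ℤ)}).IsMaximal :=
    PrincipalIdealRing.isMaximal_of_irreducible (Nat.prime_iff_prime_int.mp hp₁).irreducible
  have hinjZ : Function.Injective (algebraMap ℤ (𝓞 K)) := (algebraMap ℤ (𝓞 K)).injective_int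
  obtain ⟨P, hPmax, hPover⟩ := Ideal.exists_ideal_over_maximal_of_isIntegral (S := 𝓞 K)
    (Ideal.span {(p₁ : ℤ)}) (by
      rw [(RingHom.injective_iff_ker_eq_bot _).mp hinjZ]
      exact bot_le)
  have hpP : (p₁ : 𝓞 K) ∈ P := by
    have h1 : (p₁ : ℤ) ∈ P.comap (algebraMap ℤ (𝓞 K)) := by
      rw [hPover]
      exact Ideal.mem_span_singleton_self _
    simpa using h1
  have hP0 : P ≠ ⊥ := by
    intro h0
    rw [h0, Ideal.mem_bot] at hpP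
    exact hp₁.ne_zero (by exact_mod_cast hpP)
  obtain ⟨O, i1, i2, i3, i4, i5, i6, ι, hιinj, hιmem, -⟩ :=
    Fermat.Agent.Lib.CompleteDVR.exists_completeDVR_of_dedekind (𝓞 K) P hP0
  have hpO : (p₁ : O) ∈ maximalIdeal O := by
    have h1 : (p₁ : O) = ι (p₁ : 𝓞 K) := (map_natCast ι p₁).symm
    rw [h1, hιmem]
    exact hpP
  let χ : CuspForm.heckeAlgebra N 2 (↑S₁ : Set ℕ) →+* O := ι.comp χ₁
  let χ' : CuspForm.heckeAlgebra N' 2 (↑S₁ : Set ℕ) →+* O := ι.comp χ₁'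
  -- the two Galois representations
  obtain ⟨O₁, j1, j2, j3, j4, j5, j6, j7, j8, j9, hinj₁, ρ₁, hchar₁, -⟩ :=
    h30 p₁ N S₁ hp₁S hNS O hpO χ
  obtain ⟨O₂, k1, k2, k3, k4, k5, k6, k7, k8, k9, hinj₂, ρ₂, hchar₂, -⟩ :=
    h30 p₁ N' S₁ hp₁S hN'S O hpO χ'
  -- equality of the eigenvalues at good primes, inside `O`
  have hχeq : ∀ (ℓ : ℕ) (hℓ : ℓ.Prime) (hℓN : ¬ ℓ ∣ N) (hℓN' : ¬ ℓ ∣ N')
      (hℓc : ℓ ∉ (↑S₁ : Set ℕ)), qCoeff g ℓ = qCoeff g' ℓ →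
      χ (CuspForm.heckeAlgebra.T hℓ hℓN hℓc) = χ' (CuspForm.heckeAlgebra.T hℓ hℓN' hℓc) := by
    intro ℓ hℓ hℓN hℓN' hℓc hq
    show ι (χ₁ _) = ι (χ₁' _)
    congr 1
    apply hOKinj
    rw [hχ₁, hχ₁']
    show eigenChar hNS' hg _ = eigenChar hN'S' hg' _
    rw [eigenChar_T, eigenChar_T]
    exact hq
  -- a Frobenius element at `ℓ₀`
  obtain ⟨A₀, σ₀, hA₀, hσ₀⟩ := Fermat.Agent.Lib.exists_isFrobeniusAt ℓ₀ hℓ₀
  have hℓ₀c : ℓ₀ ∉ (↑S₁ : Set ℕ) := fun hc => hℓ₀S₁ (Finset.mem_coe.mp hc)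
  have hc : ρ₁.trace σ₀ = algebraMap O O₁ (χ (CuspForm.heckeAlgebra.T hℓ₀ hℓ₀N hℓ₀c)) :=
    trace_eq_of_charpoly ρ₁ σ₀ _ _ (hchar₁ ℓ₀ hℓ₀ hℓ₀N hℓ₀c A₀ hA₀ σ₀ hσ₀)
  have hc' : ρ₂.trace σ₀ = algebraMap O O₂ (χ' (CuspForm.heckeAlgebra.T hℓ₀ hℓ₀N' hℓ₀c)) :=
    trace_eq_of_charpoly ρ₂ σ₀ _ _ (hchar₂ ℓ₀ hℓ₀ hℓ₀N' hℓ₀c A₀ hA₀ σ₀ hσ₀)
  have key : χ (CuspForm.heckeAlgebra.T hℓ₀ hℓ₀N hℓ₀c)
      = χ' (CuspForm.heckeAlgebra.T hℓ₀ hℓ₀N' hℓ₀c) := by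
    refine eq_of_trace_frobenius (algebraMap O O₁) hinj₁ (algebraMap O O₂) hinj₂ ρ₁ ρ₂ (S ∪ S₁)
      ?_ σ₀ _ _ hc hc'
    intro ℓ hℓ hℓbad Q hQ φ hφ
    have hℓS : ℓ ∉ S := fun hm => hℓbad (Finset.mem_union_left _ hm)
    have hℓS₁ : ℓ ∉ S₁ := fun hm => hℓbad (Finset.mem_union_right _ hm)
    obtain ⟨hℓN, hℓN', hℓc⟩ := hmemS₁ ℓ hℓ hℓS₁
    refine ⟨χ (CuspForm.heckeAlgebra.T hℓ hℓN hℓc),
      trace_eq_of_charpoly ρ₁ φ _ _ (hchar₁ ℓ hℓ hℓN hℓc Q hQ φ hφ), ?_⟩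
    rw [hχeq ℓ hℓ hℓN hℓN' hℓc (h ℓ hℓ hℓS hℓN hℓN')]
    exact trace_eq_of_charpoly ρ₂ φ _ _ (hchar₂ ℓ hℓ hℓN' hℓc Q hQ φ hφ)
  -- conclusion
  have h1 : χ₁ (CuspForm.heckeAlgebra.T hℓ₀ hℓ₀N hℓ₀c)
      = χ₁' (CuspForm.heckeAlgebra.T hℓ₀ hℓ₀N' hℓ₀c) := hιinj key
  have h2 := congrArg (fun a : 𝓞 K => (((a : 𝓞 K) : K) : ℂ)) h1
  simp only [hχ₁, hχ₁'] at h2
  have h3 : eigenChar hNS' hg (CuspForm.heckeAlgebra.T hℓ₀ hℓ₀N hℓ₀c)
      = eigenChar hN'S' hg' (CuspForm.heckeAlgebra.T hℓ₀ hℓ₀N' hℓ₀c) := h2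
  rw [eigenChar_T, eigenChar_T] at h3
  exact h3

/-- **Strong multiplicity one** (via Galois representations): two normalised eigenforms whose
prime coefficients agree outside a finite set `S` have the same coefficients at ALL primes not
dividing the levels. -/
theorem qCoeff_eq_of_forall_notMem (h22 : S22Statement) (h30 : S30Statement) {N N' : ℕ}
    [NeZero N] [NeZero N'] {g : CuspForm (Gamma0 N) 2} {g' : CuspForm (Gamma0 N') 2}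
    (hg : g.IsNormalizedEigenform) (hg' : g'.IsNormalizedEigenform) (S : Finset ℕ)
    (h : ∀ ℓ : ℕ, ℓ.Prime → ℓ ∉ S → ¬ ℓ ∣ N → ¬ ℓ ∣ N' → qCoeff g ℓ = qCoeff g' ℓ) :
    ∀ ℓ : ℕ, ℓ.Prime → ¬ ℓ ∣ N → ¬ ℓ ∣ N' → qCoeff g ℓ = qCoeff g' ℓ :=
  fun _ hℓ hℓN hℓN' => qCoeff_eq_at h22 h30 hg hg' S h hℓ hℓN hℓN'

open Fermat.Agent.S41.Forms in
/-- **A newform is new outside `S`.**  The eigensystem of a Prelude newform `g` of level `M`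
outside a finite set `S` of primes does not occur at a proper divisor level `M'`: no nonzero
`f ∈ S₂(Γ₀(M'))` is an eigenvector of all `T_ℓ`, `ℓ ∤ M`, `ℓ ∉ S`, with eigenvalues `a_ℓ(g)`. -/
theorem not_occurs_of_isNewform (h22 : S22Statement) (h30 : S30Statement) {M : ℕ} [NeZero M]
    {g : CuspForm (Gamma0 M) 2} (hg : g.IsNewform) {M' : ℕ} [NeZero M'] (hM' : M' ∣ M)
    (hne : M' ≠ M) (S : Finset ℕ) (f : CuspForm (Gamma0 M') 2) (hf : f ≠ 0)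
    (hT : ∀ (ℓ : ℕ) (hℓ : ℓ.Prime) (hℓM' : ¬ ℓ ∣ M'), ¬ ℓ ∣ M → ℓ ∉ S →
      CuspForm.heckeTLin 2 hℓ hℓM' f = qCoeff g ℓ • f) : False := by
  classical
  have := Fermat.Agent.S23.finiteDimensional_cuspForm M' 2
  let V : Submodule ℂ (CuspForm (Gamma0 M') 2) :=
    { carrier := {f | ∀ (ℓ : ℕ) (hℓ : ℓ.Prime) (hℓM' : ¬ ℓ ∣ M'), ¬ ℓ ∣ M → ℓ ∉ S →
          CuspForm.heckeTLin 2 hℓ hℓM' f = qCoeff g ℓ • f}
      zero_mem' := fun ℓ hℓ hℓM' _ _ => by rw [map_zero, smul_zero]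
      add_mem' := by
        intro a b ha hb ℓ hℓ hℓM' h1 h2
        rw [map_add, ha ℓ hℓ hℓM' h1 h2, hb ℓ hℓ hℓM' h1 h2, smul_add]
      smul_mem' := by
        intro t a ha ℓ hℓ hℓM' h1 h2
        rw [map_smul, ha ℓ hℓ hℓM' h1 h2, smul_comm] }
  have hfV : f ∈ V := hT
  have hV : V ≠ ⊥ := fun h => hf ((Submodule.eq_bot_iff V).mp h f hfV)
  have hstab : ∀ i : ℕ, ∀ x ∈ V, heckeOp M' i x ∈ V := by
    intro i x hx ℓ hℓ hℓM' h1 h2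
    have hx3 := hx ℓ hℓ hℓM' h1 h2
    rw [← heckeOp_of_not_dvd M' hℓ hℓM'] at hx3 ⊢
    rw [heckeOp_comm_apply M' ℓ i, hx3, map_smul]
  obtain ⟨w, hwV, hw0, hw⟩ := Fermat.Agent.S49.Lifting.exists_common_eigenvector_in_submodule
    (heckeOp M') (heckeOp_comm M') _ V rfl hV hstab
  choose lam hlam using hw
  obtain ⟨h', hh', hh'c⟩ :=
    Fermat.Agent.S49.Eigenform.exists_normalizedEigenform_of_eigenvector w hw0 lam
      (fun l hl hd => by rw [← heckeOp_of_not_dvd M' hl hd]; exact hlam l)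
      (fun l hl hd => by rw [← heckeOp_of_dvd M' hl hd]; exact hlam l)
  -- agreement of the eigenvalues outside `S`
  have hagree : ∀ ℓ : ℕ, ℓ.Prime → ℓ ∉ S → ¬ ℓ ∣ M → ¬ ℓ ∣ M' → qCoeff g ℓ = qCoeff h' ℓ := by
    intro ℓ hℓ hℓS hℓM hℓM'
    rw [hh'c ℓ hℓ]
    have h1 := hlam ℓ
    rw [heckeOp_of_not_dvd M' hℓ hℓM', hwV ℓ hℓ hℓM' hℓM hℓS] at h1
    exact smul_left_injective ℂ hw0 h1
  have hall := qCoeff_eq_of_forall_notMem h22 h30 hg.1 hh' S hagree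
  refine hg.2 M' hM' hne ⟨h', hh', fun ℓ hℓ hℓM => ?_⟩
  have hℓM' : ¬ ℓ ∣ M' := fun hd => hℓM (dvd_trans hd hM')
  exact (hall ℓ hℓ hℓM hℓM').symm

end Fermat.Agent.S34x.Phase2.StrongMult
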